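import Fermat.Agent.S56.H9_LocTW

/-!
# S56, leaf LOC-min, part B2 (helper85): the image of inertia in a group of exponent `p ≠ q`

Let `ρ : G_ℚ → X` be a homomorphism to a monoid, trivial on the fixing subgroup of a finite Galois
extension `F`, and let `A` be a place of `ℚ̄` over the prime `q`.  If `ρ(σ)^p = 1` for all `σ` in
the inertia group `I_A`, with `p` prime to `q`, then `ρ(I_A)` is cyclic: wild inertia has
`q`-power order at level `F`, so it dies, and tame inertia is cyclic.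
-/

set_option autoImplicit false
set_option linter.unusedSectionVars false
set_option linter.style.haveILetI false

namespace Fermat.Agent.S56.LocMin

open NumberField Fermat.Agent.S56.H9 Fermat.Agent.S56

local notation "Qbar" => AlgebraicClosure ℚ

section inertiaImage

variable (A : ValuationSubring Qbar) (F : IntermediateField ℚ Qbar) [NumberField F] [Normal ℚ F]

/-- The restriction to `F` of an element of the inertia group of `A` lies in the inertia group
of the prime of `F` under `A`. -/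
lemma restrictNormalHom_mem_inertia {σ : Qbar ≃ₐ[ℚ] Qbar} (hσ : σ ∈ A.inertiaSubgroupIn ℚ) :
    AlgEquiv.restrictNormalHom F σ ∈ (primeAt A F).inertia (F ≃ₐ[ℚ] F) := by
  intro y
  show AlgEquiv.restrictNormalHom F σ • y - y ∈ primeAt A F
  rw [mem_primeAt, map_sub, intIncl_restrictNormal_smul]
  have h := ((Fermat.Agent.Lib.InertiaBridge.mem_inertiaSubgroupIn_iff_forall A σ).1 hσ).2
  exact h (intIncl F y) ((A.valuation_le_one_iff _).1 (valuation_intIncl_le_one A F y))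

end inertiaImage

/-- **The image of inertia is cyclic.** -/
theorem exists_inertia_generator (q : ℕ) (hq : q.Prime) (A : ValuationSubring Qbar)
    (hA : A.LiesOverPrime q) {X : Type*} [Monoid X] (ρ : GQ →* X)
    (F : IntermediateField ℚ Qbar) [FiniteDimensional ℚ F] [Normal ℚ F]
    (hF : ∀ s ∈ F.fixingSubgroup, ρ s = 1)
    (p : ℕ) (hp : p.Coprime q) (hpow : ∀ σ ∈ A.inertiaSubgroupIn ℚ, ρ σ ^ p = 1) :
    ∃ τ₀ ∈ A.inertiaSubgroupIn ℚ, ∀ σ ∈ A.inertiaSubgroupIn ℚ, ∃ n : ℕ, ρ σ = ρ τ₀ ^ n := by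
  classical
  haveI : NumberField F :=
    { to_charZero := inferInstance, to_finiteDimensional := inferInstance }
  haveI : Fact q.Prime := ⟨hq⟩
  have hA' : ((q : ℕ) : Qbar) ∈ A.nonunits := hA
  have hq0 : q ≠ 0 := hq.ne_zero
  haveI : (primeAt A F).IsMaximal := primeAt_isMaximal _ _ hq0 hA'
  have h𝔓 : primeAt A F ≠ ⊥ := primeAt_ne_bot A F hq0 hA'
  have h𝔓top : primeAt A F ≠ ⊤ := Ideal.IsPrime.ne_top inferInstance
  have hq𝔓 : (q : 𝓞 F) ∈ primeAt A F := natCast_mem_primeAt A F hA'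
  -- the image of inertia at level `F`
  let J : Subgroup (F ≃ₐ[ℚ] F) := (A.inertiaSubgroupIn ℚ).map (AlgEquiv.restrictNormalHom F)
  have hJ : J ≤ (primeAt A F).inertia (F ≃ₐ[ℚ] F) := by
    rintro _ ⟨σ, hσ, rfl⟩
    exact restrictNormalHom_mem_inertia A F hσ
  obtain ⟨τ₀', hτ₀', hcyc⟩ := exists_generator_mod_wild h𝔓 J hJ
  obtain ⟨τ₀, hτ₀, rfl⟩ := hτ₀'
  refine ⟨τ₀, hτ₀, fun σ hσ => ?_⟩
  obtain ⟨n, hn⟩ := hcyc (AlgEquiv.restrictNormalHom F σ) ⟨σ, hσ, rfl⟩
  refine ⟨n, ?_⟩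
  -- the wild part
  set w : Qbar ≃ₐ[ℚ] Qbar := (τ₀ ^ n)⁻¹ * σ with hw
  have hwI : w ∈ A.inertiaSubgroupIn ℚ := mul_mem (inv_mem (pow_mem hτ₀ n)) hσ
  have hw' : AlgEquiv.restrictNormalHom F w ∈ wild (primeAt A F) (F ≃ₐ[ℚ] F) := by
    rw [hw, map_mul, map_inv, map_pow]
    exact hn
  have hord : orderOf (AlgEquiv.restrictNormalHom F w) ≠ 0 :=
    (orderOf_pos (AlgEquiv.restrictNormalHom F w)).ne'
  obtain ⟨e, m, hm, hem⟩ := Nat.exists_eq_pow_mul_and_not_dvd hord q hq.ne_one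
  have hcop : m.Coprime q := (Nat.Coprime.symm ((Nat.Prime.coprime_iff_not_dvd hq).2 hm))
  have hpowy : ∀ y : 𝓞 F, ((AlgEquiv.restrictNormalHom F w ^ q ^ e) ^ m) • y = y := by
    intro y
    rw [← pow_mul, ← hem, pow_orderOf_eq_one, one_smul]
  have htriv := smul_eq_of_mem_wild_of_coprime (primeAt A F) h𝔓top hq𝔓
    (pow_mem hw' (q ^ e)) hcop hpowy
  have h1 : AlgEquiv.restrictNormalHom F w ^ q ^ e = 1 := by
    apply FaithfulSMul.eq_of_smul_eq_smul (α := 𝓞 F)
    intro y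
    rw [htriv y, one_smul]
  have h2 : w ^ q ^ e ∈ F.fixingSubgroup := by
    have h3 : AlgEquiv.restrictNormalHom F (w ^ q ^ e) = 1 := by rw [map_pow, h1]
    rw [← MonoidHom.mem_ker] at h3
    exact (Subgroup.ext_iff.1 (@IntermediateField.restrictNormalHom_ker ℚ Qbar _ _ _ F ‹_›) _).1 h3
  have h4 : ρ w ^ q ^ e = 1 := by rw [← map_pow]; exact hF _ h2
  have h5 : ρ w ^ p = 1 := hpow w hwI
  have h6 : ρ w = 1 := by
    have h7 : ρ w ^ (p.gcd (q ^ e)) = 1 := pow_gcd_eq_one.2 ⟨h5, h4⟩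
    have h8 : p.gcd (q ^ e) = 1 := Nat.Coprime.pow_right e hp
    rwa [h8, pow_one] at h7
  have h9 : σ = τ₀ ^ n * w := by rw [hw, mul_inv_cancel_left]
  rw [h9, map_mul, h6, mul_one, map_pow]

end Fermat.Agent.S56.LocMin
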