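import Fermat.Agent.S56.Dict.H85_Inj
import Fermat.Agent.S56.Dict.H74_Cont

/-!
# S56, leaf LOC-min, part B1/B3 (helper85): unipotent linear algebra

* `pow_eq_one_of_sub_one_sq`: `(f - 1)² = 0` and `p = 0` imply `f ^ p = 1`.
* `sq_zero_and_rel_of_sub_one_sq`: for a first-order deformation `R = (1 + ε c) g` with
  `(R - 1)² = 0`: `N² = 0` and `c N + N c = 0`, `N = g - 1`.
* `exists_conj_sub_eq`: in dimension `2` and odd characteristic, `N ≠ 0`, `N² = 0`,
  `tr c = 0`, `c N + N c = 0` imply `c = g m g⁻¹ - m` for a trace-zero `m` (`g = 1 + N`).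
* `isCocycleOf_sub`: changing a cocycle of a first-order deformation by a coboundary.
-/

set_option autoImplicit false

noncomputable section

namespace Fermat.Agent.S56.LocMin

open IsLocalRing Fermat.Agent.S53 Fermat.Agent.S56 Fermat.Agent.S56.Dict Fermat.Agent.S56.Dict.H85
open scoped TensorProduct

section ring

variable {R : Type*} [Ring R]

lemma pow_eq_of_sub_one_sq (f : R) (h : (f - 1) * (f - 1) = 0) (n : ℕ) :
    f ^ n = 1 + n • (f - 1) := by
  induction n with
  | zero => simp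
  | succ n ih =>
    have e : f = 1 + (f - 1) := by abel
    have e2 : (1 + n • (f - 1)) * (1 + (f - 1))
        = 1 + n • (f - 1) + (f - 1) + n • ((f - 1) * (f - 1)) := by
      rw [mul_add, mul_one, add_mul, one_mul, smul_mul_assoc]
      abel
    rw [pow_succ, ih]
    nth_rewrite 2 [e]
    rw [e2, h, smul_zero, add_zero, add_smul, one_smul]
    abel

lemma pow_eq_one_of_sub_one_sq (f : R) (h : (f - 1) * (f - 1) = 0) (p : ℕ)
    (hp : p • (1 : R) = 0) : f ^ p = 1 := by
  rw [pow_eq_of_sub_one_sq f h p]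
  have : p • (f - 1) = (p • (1 : R)) * (f - 1) := by rw [smul_mul_assoc, one_mul]
  rw [this, hp, zero_mul, add_zero]

end ring

section dual

variable {k : Type} [Field k] {V : Type} [AddCommGroup V] [Module k V]
  {W : Type} [AddCommGroup W] [Module (DualNumber k) W]
  (θ : (DualNumber k ⊗[k] V) ≃ₗ[DualNumber k] W) (R : Module.End (DualNumber k) W)
  (g c : Module.End k V)

/-- The action on the `ε`-part. -/
lemma apply_theta_eps
    (h : ∀ v : V, R (θ ((1 : DualNumber k) ⊗ₜ[k] v)) =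
      θ ((1 : DualNumber k) ⊗ₜ[k] (g v) + (DualNumber.eps : DualNumber k) ⊗ₜ[k] (c (g v))))
    (w : V) : R (θ ((DualNumber.eps : DualNumber k) ⊗ₜ[k] w))
      = θ ((DualNumber.eps : DualNumber k) ⊗ₜ[k] (g w)) := by
  rw [← eps_smul_one_tmul, map_smul, map_smul, h w, ← map_smul, smul_add,
    eps_smul_one_tmul, eps_smul_eps_tmul, add_zero]

/-- Two elements with the same image have the same components. -/
lemma eq_of_theta_eq {a a' b b' : V}
    (h : θ ((1 : DualNumber k) ⊗ₜ[k] a + (DualNumber.eps : DualNumber k) ⊗ₜ[k] b)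
      = θ ((1 : DualNumber k) ⊗ₜ[k] a' + (DualNumber.eps : DualNumber k) ⊗ₜ[k] b')) :
    a = a' ∧ b = b' := by
  have h2 := θ.injective h
  have p1 := congrArg (proj₁ V) h2
  have p2 := congrArg (proj₂ V) h2
  simp only [map_add, proj₁_tmul, proj₂_tmul, TrivSqZeroExt.fst_one, TrivSqZeroExt.snd_one,
    one_smul, zero_smul, DualNumber.fst_eps, DualNumber.snd_eps, add_zero, zero_add] at p1 p2
  exact ⟨p1, p2⟩

/-- `(R - 1)²` on the constant part. -/
lemma sub_one_sq_theta
    (h : ∀ v : V, R (θ ((1 : DualNumber k) ⊗ₜ[k] v)) =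
      θ ((1 : DualNumber k) ⊗ₜ[k] (g v) + (DualNumber.eps : DualNumber k) ⊗ₜ[k] (c (g v))))
    (v : V) : ((R - 1) * (R - 1)) (θ ((1 : DualNumber k) ⊗ₜ[k] v))
      = θ ((1 : DualNumber k) ⊗ₜ[k] ((g - 1) ((g - 1) v)) +
          (DualNumber.eps : DualNumber k) ⊗ₜ[k] (c (g ((g - 1) v)) + (g - 1) (c (g v)))) := by
  have h1 : ∀ u : V, (R - 1) (θ ((1 : DualNumber k) ⊗ₜ[k] u))
      = θ ((1 : DualNumber k) ⊗ₜ[k] ((g - 1) u) +
          (DualNumber.eps : DualNumber k) ⊗ₜ[k] (c (g u))) := by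
    intro u
    rw [LinearMap.sub_apply, Module.End.one_apply, h u, ← map_sub, LinearMap.sub_apply,
      Module.End.one_apply, TensorProduct.tmul_sub]
    congr 1
    abel
  have h2 : ∀ u : V, (R - 1) (θ ((DualNumber.eps : DualNumber k) ⊗ₜ[k] u))
      = θ ((DualNumber.eps : DualNumber k) ⊗ₜ[k] ((g - 1) u)) := by
    intro u
    rw [LinearMap.sub_apply, Module.End.one_apply, apply_theta_eps θ R g c h u, ← map_sub,
      LinearMap.sub_apply, Module.End.one_apply, TensorProduct.tmul_sub]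
  rw [Module.End.mul_apply, h1 v, map_add, map_add, h1, h2, ← map_add, TensorProduct.tmul_add]
  congr 1
  try abel

/-- For `R = (1 + ε c) g` with `(R - 1)² = 0`: `N² = 0` and `c N + N c = 0`, where `N = g - 1`. -/
theorem sq_zero_and_rel_of_sub_one_sq
    (h : ∀ v : V, R (θ ((1 : DualNumber k) ⊗ₜ[k] v)) =
      θ ((1 : DualNumber k) ⊗ₜ[k] (g v) + (DualNumber.eps : DualNumber k) ⊗ₜ[k] (c (g v))))
    (hR : (R - 1) * (R - 1) = 0) :
    (g - 1) * (g - 1) = 0 ∧ c * (g - 1) + (g - 1) * c = 0 := by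
  have key : ∀ v : V, (g - 1) ((g - 1) v) = 0 ∧ c (g ((g - 1) v)) + (g - 1) (c (g v)) = 0 := by
    intro v
    have h1 := sub_one_sq_theta θ R g c h v
    rw [hR, LinearMap.zero_apply] at h1
    have h0 : θ ((1 : DualNumber k) ⊗ₜ[k] (0 : V) + (DualNumber.eps : DualNumber k) ⊗ₜ[k] (0 : V))
        = 0 := by
      rw [TensorProduct.tmul_zero, TensorProduct.tmul_zero, add_zero, map_zero]
    rw [← h0] at h1
    obtain ⟨e1, e2⟩ := eq_of_theta_eq θ h1
    exact ⟨e1.symm, e2.symm⟩
  have hN : (g - 1) * (g - 1) = 0 := LinearMap.ext fun v => (key v).1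
  refine ⟨hN, ?_⟩
  -- `c g N + N c g = 0` with `g = 1 + N`
  have h2 : c * g * (g - 1) + (g - 1) * c * g = 0 :=
    LinearMap.ext fun v => (key v).2
  have hg : g = 1 + (g - 1) := by abel
  set N := g - 1 with hNdef
  rw [hg] at h2
  have h3 : c * N + N * c + N * c * N = 0 := by
    have e : c * (1 + N) * N + N * c * (1 + N) = c * N + N * c + N * c * N + c * (N * N) := by
      noncomm_ring
    rw [e, hN, mul_zero, add_zero] at h2
    exact h2
  have h4 : N * c * N = 0 := by
    have e : N * (c * N + N * c + N * c * N) = N * c * N + (N * N) * c + (N * N) * c * N := by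
      noncomm_ring
    rw [h3, mul_zero, hN, zero_mul, zero_mul, add_zero, add_zero] at e
    exact e.symm
  rw [h4, add_zero] at h3
  exact h3

/-- Changing the cocycle by a coboundary: the core computation. -/
lemma cocycle_rel_sub (g' : Module.End k V)
    (h : ∀ v : V, R (θ ((1 : DualNumber k) ⊗ₜ[k] v)) =
      θ ((1 : DualNumber k) ⊗ₜ[k] (g v) + (DualNumber.eps : DualNumber k) ⊗ₜ[k] (c (g v))))
    (hg : ∀ v : V, g' (g v) = v) (m : Module.End k V) (v : V) :
    R (((unip (-m)).trans θ) ((1 : DualNumber k) ⊗ₜ[k] v)) =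
      ((unip (-m)).trans θ) ((1 : DualNumber k) ⊗ₜ[k] (g v) +
        (DualNumber.eps : DualNumber k) ⊗ₜ[k] ((c - (g ∘ₗ m ∘ₗ g' - m)) (g v))) := by
  have hL : R (θ (unip (-m) ((1 : DualNumber k) ⊗ₜ[k] v)))
      = θ ((1 : DualNumber k) ⊗ₜ[k] (g v) +
          (DualNumber.eps : DualNumber k) ⊗ₜ[k] (c (g v) + g ((-m) v))) := by
    rw [unip_one_tmul, map_add, map_add, h v, apply_theta_eps θ R g c h, ← map_add,
      TensorProduct.tmul_add, add_assoc]
  have hR : unip (-m) ((1 : DualNumber k) ⊗ₜ[k] (g v) +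
        (DualNumber.eps : DualNumber k) ⊗ₜ[k] ((c - (g ∘ₗ m ∘ₗ g' - m)) (g v)))
      = (1 : DualNumber k) ⊗ₜ[k] (g v) + (DualNumber.eps : DualNumber k) ⊗ₜ[k]
          ((-m) (g v) + (c - (g ∘ₗ m ∘ₗ g' - m)) (g v)) := by
    rw [map_add, unip_one_tmul, unip_eps_tmul, TensorProduct.tmul_add, add_assoc]
  rw [LinearEquiv.trans_apply, LinearEquiv.trans_apply, hL, hR]
  congr 3
  simp only [LinearMap.sub_apply, LinearMap.comp_apply, LinearMap.neg_apply, hg, map_neg]
  abel

end dual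

section matrix

variable {k : Type*} [Field k]

/-- The standard nilpotent matrix. -/
def nilMat (k : Type*) [Field k] : Matrix (Fin 2) (Fin 2) k := !![0, 1; 0, 0]

theorem matrix_key (h2 : (2 : k) ≠ 0) (C : Matrix (Fin 2) (Fin 2) k)
    (hC : C * nilMat k + nilMat k * C = 0) :
    ∃ m : Matrix (Fin 2) (Fin 2) k, m.trace = 0 ∧
      C * (1 + nilMat k) = nilMat k * m - m * nilMat k := by
  have h00 : C 1 0 = 0 := by
    have := congrFun (congrFun hC 0) 0
    simpa [nilMat, Matrix.mul_apply, Fin.sum_univ_two, Matrix.add_apply, Matrix.vecMul,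
      dotProduct] using this
  have h01 : C 0 0 + C 1 1 = 0 := by
    have := congrFun (congrFun hC 0) 1
    simpa [nilMat, Matrix.mul_apply, Fin.sum_univ_two, Matrix.add_apply, Matrix.vecMul,
      dotProduct] using this
  have h11 : C 1 1 = - C 0 0 := by linear_combination h01
  refine ⟨!![-(C 0 0 + C 0 1) / 2, 0; C 0 0, (C 0 0 + C 0 1) / 2], ?_, ?_⟩
  · simp [Matrix.trace, Fin.sum_univ_two]
    ring
  · ext i j
    fin_cases i <;> fin_cases j <;>
      simp [nilMat, Matrix.mul_apply, Fin.sum_univ_two, Matrix.add_apply, Matrix.one_apply,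
        h00, h11]
    field_simp
    ring

variable {V : Type*} [AddCommGroup V] [Module k V]

/-- In dimension `2` and odd characteristic: if `N ≠ 0`, `N² = 0` and `c N + N c = 0` then
`c (1 + N) = N m - m N` for some trace-zero `m`. -/
theorem exists_comm_eq (hV : Module.finrank k V = 2) (h2 : (2 : k) ≠ 0)
    (N c : Module.End k V) (hN0 : N ≠ 0) (hN : N * N = 0) (hc : c * N + N * c = 0) :
    ∃ m : Module.End k V, LinearMap.trace k V m = 0 ∧ c * (1 + N) = N * m - m * N := by
  classical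
  obtain ⟨v, hv⟩ : ∃ v, N v ≠ 0 := by
    by_contra hcon
    push Not at hcon
    exact hN0 (LinearMap.ext hcon)
  have hNN : ∀ u, N (N u) = 0 := fun u => by
    have := congrArg (fun f : Module.End k V => f u) hN
    exact this
  have hli : LinearIndependent k ![N v, v] := by
    rw [LinearIndependent.pair_iff]
    intro s t hst
    have h1 := congrArg N hst
    rw [map_add, map_smul, map_smul, hNN, smul_zero, zero_add, map_zero] at h1
    have ht : t = 0 := (smul_eq_zero.1 h1).resolve_right hv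
    rw [ht, zero_smul, add_zero] at hst
    exact ⟨(smul_eq_zero.1 hst).resolve_right hv, ht⟩
  let b : Module.Basis (Fin 2) k V :=
    basisOfLinearIndependentOfCardEqFinrank hli (by rw [hV]; rfl)
  have hb0 : b 0 = N v := by
    show (basisOfLinearIndependentOfCardEqFinrank hli _) 0 = _
    rw [coe_basisOfLinearIndependentOfCardEqFinrank]
    rfl
  have hb1 : b 1 = v := by
    show (basisOfLinearIndependentOfCardEqFinrank hli _) 1 = _
    rw [coe_basisOfLinearIndependentOfCardEqFinrank]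
    rfl
  let e := LinearMap.toMatrixAlgEquiv b
  have heN : e N = nilMat k := by
    ext i j
    rw [LinearMap.toMatrixAlgEquiv_apply]
    fin_cases j
    · have : N (b 0) = 0 := by rw [hb0, hNN]
      simp only [Fin.zero_eta, this, map_zero, Finsupp.coe_zero, Pi.zero_apply]
      fin_cases i <;> simp [nilMat]
    · have : N (b 1) = b 0 := by rw [hb1, hb0]
      simp only [Fin.mk_one, this, Module.Basis.repr_self]
      fin_cases i <;> simp [nilMat]
  have hC : e c * nilMat k + nilMat k * e c = 0 := by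
    rw [← heN, ← map_mul, ← map_mul, ← map_add, hc, map_zero]
  obtain ⟨m₀, hm₀, hm⟩ := matrix_key h2 (e c) hC
  refine ⟨e.symm m₀, ?_, ?_⟩
  · rw [LinearMap.trace_eq_matrix_trace k b]
    have : LinearMap.toMatrix b b (e.symm m₀) = m₀ := e.apply_symm_apply m₀
    rw [this, hm₀]
  · apply e.injective
    rw [map_mul, map_add, map_one, map_sub, map_mul, map_mul, e.apply_symm_apply, heN]
    exact hm

end matrix

section charpoly

variable {A : Type*} [CommRing A] {W : Type*} [AddCommGroup W] [Module A W] [Module.Free A W]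
  [Module.Finite A W]

/-- Cayley-Hamilton for a unipotent characteristic polynomial. -/
theorem sub_one_sq_of_charpoly (f : Module.End A W)
    (h : LinearMap.charpoly f = (Polynomial.X - 1) ^ 2) : (f - 1) * (f - 1) = 0 := by
  have h1 := LinearMap.aeval_self_charpoly f
  rw [h, map_pow, map_sub, Polynomial.aeval_X, map_one, pow_two] at h1
  exact h1

end charpoly

section cocycle

variable {𝒪 : Type} [CommRing 𝒪] [IsLocalRing 𝒪]
variable {ρbar : ResidualGaloisRep (ResidueField 𝒪)} {𝒟 : Cond 𝒪}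

theorem rho_rho_inv (σ : GQ) (v : ρbar.V) : ρbar.ρ σ (ρbar.ρ σ⁻¹ v) = v := by
  have h := rho_inv_rho ρbar σ⁻¹ v
  rwa [inv_inv] at h

/-- Changing the cocycle of a first-order deformation by the coboundary of `m`. -/
theorem isCocycleOf_sub (x : TSub 𝒪 ρbar 𝒟) (c : GQ → Module.End (ResidueField 𝒪) ρbar.V)
    (hc : IsCocycleOf x c) (m : Module.End (ResidueField 𝒪) ρbar.V) :
    IsCocycleOf x (fun σ => c σ - (ρbar.ρ σ ∘ₗ m ∘ₗ ρbar.ρ σ⁻¹ - m)) := by
  obtain ⟨θ, hθ⟩ := hc
  exact ⟨(unip (-m)).trans θ, fun σ v =>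
    cocycle_rel_sub θ (x.1.ρ σ) (ρbar.ρ σ) (c σ) (ρbar.ρ σ⁻¹) (hθ σ)
      (rho_inv_rho ρbar σ) m v⟩

/-- The deformation determines the residual representation and the cocycle. -/
theorem eq_of_rho_eq (x : TSub 𝒪 ρbar 𝒟) (c : GQ → Module.End (ResidueField 𝒪) ρbar.V)
    (hc : IsCocycleOf x c) {σ τ : GQ} (h : x.1.ρ σ = x.1.ρ τ) :
    ρbar.ρ σ = ρbar.ρ τ ∧ c σ = c τ := by
  obtain ⟨θ, hθ⟩ := hc
  have key : ∀ v : ρbar.V, ρbar.ρ σ v = ρbar.ρ τ v ∧ c σ (ρbar.ρ σ v) = c τ (ρbar.ρ τ v) := by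
    intro v
    have h1 := hθ σ v
    rw [h, hθ τ v] at h1
    obtain ⟨e1, e2⟩ := eq_of_theta_eq θ h1
    exact ⟨e1.symm, e2.symm⟩
  have hg : ρbar.ρ σ = ρbar.ρ τ := LinearMap.ext fun v => (key v).1
  refine ⟨hg, LinearMap.ext fun u => ?_⟩
  have h2 := (key (ρbar.ρ σ⁻¹ u)).2
  rw [← hg, rho_rho_inv] at h2
  exact h2

/-- The relations at an element on which the deformation is unipotent. -/
theorem rel_of_unipotent (x : TSub 𝒪 ρbar 𝒟) (c : GQ → Module.End (ResidueField 𝒪) ρbar.V)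
    (hc : IsCocycleOf x c) (σ : GQ)
    (h : LinearMap.charpoly (x.1.ρ σ) = (Polynomial.X - 1) ^ 2) :
    (ρbar.ρ σ - 1) * (ρbar.ρ σ - 1) = 0 ∧ c σ * (ρbar.ρ σ - 1) + (ρbar.ρ σ - 1) * c σ = 0 := by
  obtain ⟨θ, hθ⟩ := hc
  exact sq_zero_and_rel_of_sub_one_sq θ (x.1.ρ σ) (ρbar.ρ σ) (c σ) (hθ σ)
    (sub_one_sq_of_charpoly _ h)

end cocycle

end Fermat.Agent.S56.LocMin

end
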