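import Fermat.Agent.S56.LocMin.H85_Level
import Fermat.Agent.S56.LocMin.H85_Cyclic
import Fermat.Agent.S56.LocMin.H85_Unip
import Fermat.Agent.S56.H47_Basic
import Fermat.Agent.Lib.InertiaConj

/-!
# S56, leaf LOC-min (helper85): `Stmt_loc_min`

At a prime `q ∈ Smin`, `q ≠ p`, the classes of the first-order deformations which are unipotent
on inertia at `q` restrict to unramified classes at `q`; these form a space of dimension at most
`h⁰(ℚ_q, ad⁰ ρbar)`.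
-/

set_option autoImplicit false
set_option linter.unusedSectionVars false
set_option linter.style.haveILetI false

noncomputable section

namespace Fermat.Agent.S56.LocMin

open IsLocalRing CategoryTheory groupCohomology ExtCitation Fermat.Agent.S53 Fermat.Agent.S56
  Fermat.Agent.S56.H9 Fermat.Agent.S56.Dict Fermat.Agent.S56.Dict.H85

local notation "Qbar" => AlgebraicClosure ℚ

section core

variable {𝒪 : Type} [CommRing 𝒪] [IsLocalRing 𝒪]
variable {ρbar : ResidualGaloisRep (ResidueField 𝒪)} {𝒟 : Cond 𝒪}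

/-- `p = 0` in the endomorphism ring of a module over the dual numbers. -/
lemma nsmul_one_end_eq_zero (p : ℕ) (hpk : (p : ResidueField 𝒪) = 0) (W : Type)
    [AddCommGroup W] [Module (DualNumber (ResidueField 𝒪)) W] :
    p • (1 : Module.End (DualNumber (ResidueField 𝒪)) W) = 0 := by
  have h1 : (p : DualNumber (ResidueField 𝒪)) = 0 := by
    rw [← map_natCast (algebraMap (ResidueField 𝒪) (DualNumber (ResidueField 𝒪))), hpk, map_zero]
  rw [← Nat.cast_smul_eq_nsmul (DualNumber (ResidueField 𝒪)), h1]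
  exact zero_smul (DualNumber (ResidueField 𝒪))
    (1 : Module.End (DualNumber (ResidueField 𝒪)) W)

/-- The coboundary of `m`, as a cocycle. -/
def cobCocycle (m : ad0 ρbar) : cocycles₁ (ad0 ρbar) :=
  ⟨(d₀₁ (ad0 ρbar)).hom m, coboundaries₁_le_cocycles₁ _ ⟨m, rfl⟩⟩

lemma cobCocycle_apply (m : ad0 ρbar) (σ : GQ) :
    (cobCocycle m : cocycles₁ (ad0 ρbar)) σ = (d₀₁ (ad0 ρbar)).hom m σ := rfl

lemma H1π_cobCocycle (m : ad0 ρbar) : (H1π (ad0 ρbar)).hom (cobCocycle m) = 0 :=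
  (H1π_eq_zero_iff _).2 ⟨m, rfl⟩

/-- An extension of `ρbar` ramified at `q` is ramified at the standard place over `q`. -/
lemma exists_ramified_at_place (q : Nat.Primes) (hram : ¬ ρbar.IsUnramifiedAt (q : ℕ)) :
    ∃ σ ∈ (primeLocalPlace q).inertiaSubgroupIn ℚ, ρbar.ρ σ ≠ 1 := by
  unfold ResidualGaloisRep.IsUnramifiedAt at hram
  push Not at hram
  obtain ⟨A, hA, σ, hσ, hne⟩ := hram
  obtain ⟨g, hg⟩ := Fermat.Agent.Lib.InertiaConj.exists_conj_mem_inertia (q : ℕ) q.2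
    (primeLocalPlace q) A (primeLocalPlace_liesOver q) hA
  refine ⟨g⁻¹ * σ * g, (hg σ).1 hσ, fun h1 => hne ?_⟩
  have h2 : σ = g * (g⁻¹ * σ * g) * g⁻¹ := by group
  rw [h2, map_mul, map_mul, h1, mul_one, ← map_mul, mul_inv_cancel, map_one]

/-- **The class of a deformation unipotent on inertia at `q` is unramified at `q`.** -/
theorem resAt_mem_unrH1All_of_unipotent (p : ℕ) (hp : p.Prime) (hp2 : p ≠ 2)
    (hpk : (p : ResidueField 𝒪) = 0) (q : Nat.Primes) (hqp : (q : ℕ) ≠ p)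
    (hram : ¬ ρbar.IsUnramifiedAt (q : ℕ)) (x : TSub 𝒪 ρbar 𝒟)
    (hx : x.1.IsUnipotentOnInertiaAt (q : ℕ)) (ξ : H1 (ad0 ρbar)) (hξ : IsClassOf x ξ) :
    resAt (ad0 ρbar) q ξ ∈ unrH1All (ad0 ρbar) q := by
  classical
  obtain ⟨c, hc, rfl⟩ := hξ
  have hP := primeLocalPlace_liesOver q
  -- exponent `p` on inertia
  have hpow : ∀ σ ∈ (primeLocalPlace q).inertiaSubgroupIn ℚ, x.1.ρ σ ^ p = 1 := fun σ hσ =>
    pow_eq_one_of_sub_one_sq _ (sub_one_sq_of_charpoly _ (hx _ hP σ hσ)) p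
      (nsmul_one_end_eq_zero p hpk _)
  -- a finite Galois level
  obtain ⟨L, hL, hLker⟩ := exists_finite_le_ker x
  haveI := hL
  let F : IntermediateField ℚ Qbar := IntermediateField.normalClosure ℚ L Qbar
  haveI hFfd : FiniteDimensional ℚ F := inferInstance
  haveI hnQ : Normal ℚ Qbar := (Fermat.Agent.Lib.InertiaLift.qbar_isGalois').to_normal
  haveI hFn : Normal ℚ F := normalClosure.normal ℚ L Qbar
  have hLF : L ≤ F := L.le_normalClosure
  have hF : ∀ s ∈ F.fixingSubgroup, x.1.ρ s = 1 := fun s hs =>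
    MonoidHom.mem_ker.1 (hLker (IntermediateField.fixingSubgroup_antitone hLF hs))
  -- the image of inertia is cyclic
  have hcop : p.Coprime (q : ℕ) := (Nat.coprime_primes hp q.2).2 (Ne.symm hqp)
  obtain ⟨τ₀, hτ₀, hgen⟩ := exists_inertia_generator (q : ℕ) q.2 (primeLocalPlace q) hP
    x.1.ρ F hF p hcop hpow
  -- `ρbar τ₀ ≠ 1`
  have hN0 : ρbar.ρ τ₀ - 1 ≠ 0 := by
    intro h0
    have h1 : ρbar.ρ τ₀ = 1 := sub_eq_zero.1 h0
    obtain ⟨σ, hσ, hne⟩ := exists_ramified_at_place q hram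
    obtain ⟨n, hn⟩ := hgen σ hσ
    rw [← map_pow] at hn
    have h2 := (eq_of_rho_eq x _ hc hn).1
    rw [map_pow, h1, one_pow] at h2
    exact hne h2
  -- the relations at `τ₀`
  obtain ⟨hN, hrel⟩ := rel_of_unipotent x _ hc τ₀ (hx _ hP τ₀ hτ₀)
  have h2k : (2 : ResidueField 𝒪) ≠ 0 := by
    intro h2
    haveI : CharP (ResidueField 𝒪) p := (CharP.charP_iff_prime_eq_zero hp).2 hpk
    have h3 : ((2 : ℕ) : ResidueField 𝒪) = 0 := by exact_mod_cast h2
    have h4 := (CharP.cast_eq_zero_iff (ResidueField 𝒪) p 2).1 h3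
    exact hp2 ((Nat.prime_dvd_prime_iff_eq hp Nat.prime_two).1 h4)
  obtain ⟨m₀, hm₀, hm⟩ := exists_comm_eq ρbar.finrank_eq h2k (ρbar.ρ τ₀ - 1)
    (ad0Val ρbar ((c : GQ → ad0 ρbar) τ₀)) hN0 hN hrel
  let m : ad0 ρbar := ⟨m₀, hm₀⟩
  have hmval : ad0Val ρbar m = m₀ := rfl
  -- the modified cocycle
  let c' : cocycles₁ (ad0 ρbar) := c - cobCocycle m
  have hc'val : ∀ σ : GQ, ad0Val ρbar ((c' : GQ → ad0 ρbar) σ)
      = ad0Val ρbar ((c : GQ → ad0 ρbar) σ) - (ρbar.ρ σ ∘ₗ m₀ ∘ₗ ρbar.ρ σ⁻¹ - m₀) := by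
    intro σ
    have e : (c' : GQ → ad0 ρbar) σ = (c : GQ → ad0 ρbar) σ - (d₀₁ (ad0 ρbar)).hom m σ := rfl
    rw [e, map_sub, ad0Val_d₀₁, hmval]
  have hc' : IsCocycleOf x (fun σ => ad0Val ρbar ((c' : GQ → ad0 ρbar) σ)) := by
    have h1 := isCocycleOf_sub x _ hc m₀
    have h2 : (fun σ => ad0Val ρbar ((c' : GQ → ad0 ρbar) σ))
        = fun σ => ad0Val ρbar ((c : GQ → ad0 ρbar) σ) - (ρbar.ρ σ ∘ₗ m₀ ∘ₗ ρbar.ρ σ⁻¹ - m₀) :=
      funext hc'val
    rw [h2]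
    exact h1
  have hclass : (H1π (ad0 ρbar)).hom c' = (H1π (ad0 ρbar)).hom c := by
    show (H1π (ad0 ρbar)).hom (c - cobCocycle m) = _
    rw [map_sub, H1π_cobCocycle, sub_zero]
  -- `c' τ₀ = 0`
  have hτ₀0 : (c' : GQ → ad0 ρbar) τ₀ = 0 := by
    apply Fermat.Agent.S56.H47.ad0Val_injective ρbar
    rw [hc'val, map_zero, sub_eq_zero]
    have hgg : ρbar.ρ τ₀ * ρbar.ρ τ₀⁻¹ = 1 := by rw [← map_mul, mul_inv_cancel, map_one]
    have e1 : ad0Val ρbar ((c : GQ → ad0 ρbar) τ₀) * ρbar.ρ τ₀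
        = ρbar.ρ τ₀ * m₀ - m₀ * ρbar.ρ τ₀ := by
      have e0 : (1 : Module.End (ResidueField 𝒪) ρbar.V) + (ρbar.ρ τ₀ - 1) = ρbar.ρ τ₀ := by abel
      rw [e0] at hm
      rw [hm]
      noncomm_ring
    have e2 : ad0Val ρbar ((c : GQ → ad0 ρbar) τ₀)
        = (ad0Val ρbar ((c : GQ → ad0 ρbar) τ₀) * ρbar.ρ τ₀) * ρbar.ρ τ₀⁻¹ := by
      rw [mul_assoc, hgg, mul_one]
    rw [e2, e1, sub_mul, mul_assoc, mul_assoc, hgg, mul_one]
    rfl
  -- `c'` vanishes on inertia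
  have hI : ∀ σ ∈ (primeLocalPlace q).inertiaSubgroupIn ℚ, (c' : GQ → ad0 ρbar) σ = 0 := by
    intro σ hσ
    obtain ⟨n, hn⟩ := hgen σ hσ
    rw [← map_pow] at hn
    have h2 := (eq_of_rho_eq x _ hc' hn).2
    have h3 : (c' : GQ → ad0 ρbar) (τ₀ ^ n) = 0 := by
      have h4 := cocycle_pow c' τ₀ 0 (by rw [hτ₀0, map_zero, sub_zero]) n
      rw [h4, map_zero, sub_zero]
    have h5 : ad0Val ρbar ((c' : GQ → ad0 ρbar) σ) = ad0Val ρbar ((c' : GQ → ad0 ρbar) (τ₀ ^ n)) :=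
      h2
    rw [h3, map_zero] at h5
    apply Fermat.Agent.S56.H47.ad0Val_injective ρbar
    rw [h5, map_zero]
  -- `c'` vanishes on the fixing subgroup of `F`
  have hF0 : ∀ s ∈ F.fixingSubgroup, (c' : GQ → ad0 ρbar) s = 0 := by
    intro s hs
    have h1 := cocycle_eq_zero_of_mem_ker x _ hc' s
      (hLker (IntermediateField.fixingSubgroup_antitone hLF hs))
    apply Fermat.Agent.S56.H47.ad0Val_injective ρbar
    rw [map_zero]
    exact h1
  rw [← hclass]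
  exact resAt_H1π_mem_unrH1All (ad0 ρbar) q c' F hF0 hI

end core

/-- **Leaf LOC-min.** -/
theorem stmt_loc_min : Stmt_loc_min := by
  intro 𝒪 _ _ _ _ _ p _ ρbar S Smin hyp q hq hqp
  have hp : p.Prime := Fact.out
  have hpk : (p : ResidueField 𝒪) = 0 := by
    have := (IsLocalRing.residue_eq_zero_iff (p : 𝒪)).mpr hyp.hp𝒪
    simpa using this
  have hram : ¬ ρbar.IsUnramifiedAt (q : ℕ) := (hyp.hmin (q : ℕ) q.2 hqp).1 hq
  haveI : FiniteDimensional (ResidueField 𝒪) (ad0 ρbar) :=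
    (Fermat.Agent.S56.H47.ad0_basic (ResidueField 𝒪) ρbar).1
  have hfin := finrank_unrH1All_le (ad0 ρbar) q
  constructor
  · refine ⟨unrH1All (ad0 ρbar) q, unrH1All_le_locH1 _ q, hfin.1, by simpa using hfin.2,
      fun T x ξ hξ => ?_⟩
    exact resAt_mem_unrH1All_of_unipotent p hp hyp.hp2 hpk q hqp hram x
      (x.2.1.2 (q : ℕ) hq q.2 hqp) ξ hξ
  · refine ⟨unrH1All (ad0 ρbar) q, unrH1All_le_locH1 _ q, hfin.1, by simpa using hfin.2,
      fun T x ξ hξ => ?_⟩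
    exact resAt_mem_unrH1All_of_unipotent p hp hyp.hp2 hpk q hqp hram x
      (x.2.1.2 (q : ℕ) hq q.2 hqp) ξ hξ

end Fermat.Agent.S56.LocMin

end
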