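import Fermat.Agent.S56.H9_H1Bound

/-!
# S56, leaf LOC-min, part A (helper85): an abstract bound for unramified classes

`G` a group acting on a finite-dimensional `k`-vector space `M`, `I` a normal subgroup,
`G = ⟨φ⟩ I`.  The classes of the cocycles vanishing on `I` span a space of dimension at most
`dim M^G`.  (Inflation from the cyclic quotient `G / I`: `H¹(G/I, M^I) = M^I / (φ - 1) M^I`.)

Also: a directed family of finite-dimensional subspaces of bounded dimension has a
finite-dimensional supremum of the same bound.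
-/

set_option autoImplicit false

namespace Fermat.Agent.S56.LocMin

open CategoryTheory groupCohomology Fermat.Agent.S56.H9

universe u

section linalg

variable {k Z W N : Type*} [Field k] [AddCommGroup Z] [Module k Z] [AddCommGroup W]
  [Module k W] [AddCommGroup N] [Module k N]

/-- If `π c = 0` whenever `ev c` lies in the range of the endomorphism `D` of the
finite-dimensional space `N`, then the range of `π` has dimension at most `dim ker D`. -/
theorem finrank_range_le_finrank_ker_of [FiniteDimensional k N] (π : Z →ₗ[k] W)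
    (ev : Z →ₗ[k] N) (D : N →ₗ[k] N)
    (h : ∀ c, ev c ∈ LinearMap.range D → π c = 0) :
    Module.Finite k (LinearMap.range π) ∧
      Module.finrank k (LinearMap.range π) ≤ Module.finrank k (LinearMap.ker D) := by
  have hker : LinearMap.ker ((LinearMap.range D).mkQ.comp ev) ≤ LinearMap.ker π := by
    intro c hc
    rw [LinearMap.mem_ker] at hc ⊢
    apply h
    have h1 : (LinearMap.range D).mkQ (ev c) = 0 := hc
    rwa [Submodule.mkQ_apply, Submodule.Quotient.mk_eq_zero] at h1
  have key := finrank_range_le_of_ker_le π ((LinearMap.range D).mkQ.comp ev) hker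
  rw [finrank_quot_range_eq_finrank_ker] at key
  exact key

end linalg

section abstract

variable {k G : Type u} [Field k] [Group G] (M : Rep k G)

/-- The cocycles vanishing on the subgroup `I`. -/
def unrCocycles (I : Subgroup G) : Submodule k (cocycles₁ M) where
  carrier := {c | ∀ i ∈ I, c i = 0}
  add_mem' := by
    intro a b ha hb i hi
    have e : (a + b : cocycles₁ M) i = a i + b i := rfl
    rw [e, ha i hi, hb i hi, add_zero]
  zero_mem' := by
    intro i _
    rfl
  smul_mem' := by
    intro r a ha i hi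
    have e : (r • a : cocycles₁ M) i = r • a i := rfl
    rw [e, ha i hi, smul_zero]

lemma mem_unrCocycles {I : Subgroup G} {c : cocycles₁ M} :
    c ∈ unrCocycles M I ↔ ∀ i ∈ I, c i = 0 := Iff.rfl

/-- Antitonicity in `I`. -/
lemma unrCocycles_anti {I J : Subgroup G} (h : I ≤ J) : unrCocycles M J ≤ unrCocycles M I :=
  fun _ hc i hi => hc i (h hi)

/-- The vectors fixed by `I`. -/
def fixedBy (I : Subgroup G) : Submodule k M where
  carrier := {a | ∀ i ∈ I, M.ρ i a = a}
  add_mem' := by
    intro a b ha hb i hi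
    rw [map_add, ha i hi, hb i hi]
  zero_mem' := by
    intro i _
    rw [map_zero]
  smul_mem' := by
    intro r a ha i hi
    rw [map_smul, ha i hi]

lemma mem_fixedBy {I : Subgroup G} {a : M} : a ∈ fixedBy M I ↔ ∀ i ∈ I, M.ρ i a = a := Iff.rfl

variable {M}

/-- `M^I` is stable under `G` when `I` is normal. -/
lemma rho_mem_fixedBy {I : Subgroup G} (hI : I.Normal) (g : G) {a : M} (ha : a ∈ fixedBy M I) :
    M.ρ g a ∈ fixedBy M I := by
  intro i hi
  have h1 : g⁻¹ * i * g ∈ I := by
    have := hI.conj_mem i hi g⁻¹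
    rwa [inv_inv] at this
  have h2 : i * g = g * (g⁻¹ * i * g) := by group
  have h3 : M.ρ i (M.ρ g a) = M.ρ (i * g) a := by rw [map_mul]; rfl
  rw [h3, h2, map_mul]
  show M.ρ g (M.ρ (g⁻¹ * i * g) a) = M.ρ g a
  rw [ha _ h1]

/-- A cocycle vanishing on the normal subgroup `I` has values in `M^I`. -/
lemma unrCocycle_mem_fixedBy {I : Subgroup G} (hI : I.Normal) {c : cocycles₁ M}
    (hc : c ∈ unrCocycles M I) (g : G) : c g ∈ fixedBy M I := by
  intro i hi
  have h1 : g⁻¹ * i * g ∈ I := by
    have := hI.conj_mem i hi g⁻¹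
    rwa [inv_inv] at this
  have h2 : i * g = g * (g⁻¹ * i * g) := by group
  have e1 : c (i * g) = M.ρ i (c g) := by
    rw [cocycle_mul, hc i hi, add_zero]
  have e2 : c (i * g) = c g := by
    rw [h2, cocycle_mul, hc _ h1, map_zero, zero_add]
  rw [← e1, e2]

variable (M) in
/-- The endomorphism `φ - 1` of `M^I`. -/
noncomputable def fixedDiff {I : Subgroup G} (hI : I.Normal) (φ : G) :
    fixedBy M I →ₗ[k] fixedBy M I :=
  LinearMap.restrict (M.ρ φ - 1 : M →ₗ[k] M) (fun _ ha =>
    (fixedBy M I).sub_mem (rho_mem_fixedBy hI φ ha) ha)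

lemma fixedDiff_coe {I : Subgroup G} (hI : I.Normal) (φ : G) (a : fixedBy M I) :
    ((fixedDiff M hI φ a : fixedBy M I) : M) = M.ρ φ (a : M) - (a : M) := rfl

variable (M) in
/-- Evaluation at `φ` of the cocycles vanishing on `I`, with values in `M^I`. -/
noncomputable def evalFixed {I : Subgroup G} (hI : I.Normal) (φ : G) :
    unrCocycles M I →ₗ[k] fixedBy M I :=
  LinearMap.codRestrict (fixedBy M I) ((evalCocycle φ).comp (unrCocycles M I).subtype)
    (fun c => unrCocycle_mem_fixedBy hI c.2 φ)

lemma evalFixed_coe {I : Subgroup G} (hI : I.Normal) (φ : G) (c : unrCocycles M I) :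
    ((evalFixed M hI φ c : fixedBy M I) : M) = (c : cocycles₁ M) φ := rfl

/-- A cocycle vanishing on `I` whose value at `φ` is `φ a - a`, `a ∈ M^I`, is the coboundary of
`a`. -/
lemma unrCocycle_mem_coboundaries {I : Subgroup G} {φ : G}
    (hgen : ∀ g : G, ∃ n : ℕ, ∃ i ∈ I, g = φ ^ n * i) {c : cocycles₁ M}
    (hc : c ∈ unrCocycles M I) {a : M} (ha : a ∈ fixedBy M I) (hφ : c φ = M.ρ φ a - a) :
    (c : G → M) ∈ coboundaries₁ M := by
  refine ⟨a, ?_⟩
  funext g
  obtain ⟨n, i, hi, rfl⟩ := hgen g
  rw [d₀₁_hom_apply]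
  have e1 : c (φ ^ n * i) = M.ρ (φ ^ n) a - a := by
    rw [cocycle_mul, hc i hi, map_zero, zero_add, cocycle_pow _ φ a hφ]
  have e2 : M.ρ (φ ^ n * i) a = M.ρ (φ ^ n) a := by
    rw [map_mul]
    show M.ρ (φ ^ n) (M.ρ i a) = _
    rw [ha i hi]
  rw [e2]
  exact e1.symm

/-- A vector of `M^I` fixed by `φ` is invariant. -/
lemma mem_invariants_of_fixed {I : Subgroup G} {φ : G}
    (hgen : ∀ g : G, ∃ n : ℕ, ∃ i ∈ I, g = φ ^ n * i) {a : M} (ha : a ∈ fixedBy M I)
    (hφ : M.ρ φ a = a) : a ∈ M.ρ.invariants := by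
  intro g
  obtain ⟨n, i, hi, rfl⟩ := hgen g
  rw [map_mul]
  show M.ρ (φ ^ n) (M.ρ i a) = _
  rw [ha i hi, map_pow]
  exact apply_pow_eq_self hφ n

lemma finrank_ker_fixedDiff_le [FiniteDimensional k M] {I : Subgroup G} (hI : I.Normal)
    (φ : G) (hgen : ∀ g : G, ∃ n : ℕ, ∃ i ∈ I, g = φ ^ n * i) :
    Module.finrank k (LinearMap.ker (fixedDiff M hI φ)) ≤ Module.finrank k M.ρ.invariants := by
  have hmem : ∀ a : LinearMap.ker (fixedDiff M hI φ),
      (((a : fixedBy M I) : M)) ∈ M.ρ.invariants := by
    intro a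
    refine mem_invariants_of_fixed hgen (a : fixedBy M I).2 ?_
    have h0 : fixedDiff M hI φ (a : fixedBy M I) = 0 := a.2
    have h1 := congrArg (fun z : fixedBy M I => (z : M)) h0
    simp only [fixedDiff_coe] at h1
    exact sub_eq_zero.1 h1
  let ι : LinearMap.ker (fixedDiff M hI φ) →ₗ[k] M.ρ.invariants :=
    LinearMap.codRestrict M.ρ.invariants
      ((fixedBy M I).subtype.comp (LinearMap.ker (fixedDiff M hI φ)).subtype) hmem
  have hι : Function.Injective ι := by
    intro a b hab
    have h1 := congrArg (fun z : M.ρ.invariants => (z : M)) hab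
    exact Subtype.ext (Subtype.ext h1)
  exact LinearMap.finrank_le_finrank_of_injective hι

lemma range_comp_subtype_unr (I : Subgroup G) :
    LinearMap.range ((H1π M).hom.comp (unrCocycles M I).subtype)
      = (unrCocycles M I).map (H1π M).hom :=
  (LinearMap.range_comp _ _).trans (by rw [Submodule.range_subtype])

lemma unr_class_eq_zero [FiniteDimensional k M] {I : Subgroup G} (hI : I.Normal)
    (φ : G) (hgen : ∀ g : G, ∃ n : ℕ, ∃ i ∈ I, g = φ ^ n * i) (c : unrCocycles M I)
    (hc : evalFixed M hI φ c ∈ LinearMap.range (fixedDiff M hI φ)) :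
    ((H1π M).hom.comp (unrCocycles M I).subtype) c = 0 := by
  obtain ⟨a, ha⟩ := hc
  have ha' : (c : cocycles₁ M) φ = M.ρ φ (a : M) - (a : M) := by
    rw [← evalFixed_coe hI, ← ha, fixedDiff_coe]
  show (H1π M).hom (c : cocycles₁ M) = 0
  rw [H1π_eq_zero_iff]
  exact unrCocycle_mem_coboundaries hgen c.2 a.2 ha'

/-- **Abstract bound for unramified classes.** -/
theorem finrank_map_unrCocycles_le [FiniteDimensional k M] {I : Subgroup G} (hI : I.Normal)
    (φ : G) (hgen : ∀ g : G, ∃ n : ℕ, ∃ i ∈ I, g = φ ^ n * i) :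
    Module.Finite k ((unrCocycles M I).map (H1π M).hom) ∧
      Module.finrank k ((unrCocycles M I).map (H1π M).hom)
        ≤ Module.finrank k M.ρ.invariants := by
  have key := finrank_range_le_finrank_ker_of (k := k) (Z := unrCocycles M I) (W := H1 M)
    (N := fixedBy M I)
    ((H1π M).hom.comp (unrCocycles M I).subtype : unrCocycles M I →ₗ[k] H1 M)
    (evalFixed M hI φ) (fixedDiff M hI φ)
    (unr_class_eq_zero (M := M) hI φ hgen)
  rw [range_comp_subtype_unr] at key
  exact ⟨key.1, key.2.trans (finrank_ker_fixedDiff_le hI φ hgen)⟩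

end abstract

section directed

variable {k V : Type*} [Field k] [AddCommGroup V] [Module k V]

/-- A directed family of finite-dimensional subspaces of dimension `≤ n` has a
finite-dimensional supremum of dimension `≤ n`. -/
theorem finrank_iSup_le_of_directed {ι : Type*} [Nonempty ι] (W : ι → Submodule k V)
    (hdir : Directed (· ≤ ·) W) (n : ℕ)
    (h : ∀ i, Module.Finite k (W i) ∧ Module.finrank k (W i) ≤ n) :
    Module.Finite k (⨆ i, W i : Submodule k V) ∧
      Module.finrank k (⨆ i, W i : Submodule k V) ≤ n := by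
  classical
  -- an index of maximal dimension
  have hbdd : ∃ i₀, ∀ i, Module.finrank k (W i) ≤ Module.finrank k (W i₀) := by
    by_contra hcon
    push Not at hcon
    have : ∀ m : ℕ, ∃ i, m ≤ Module.finrank k (W i) := by
      intro m
      induction m with
      | zero => exact ⟨Classical.arbitrary ι, Nat.zero_le _⟩
      | succ m ih =>
        obtain ⟨i, hi⟩ := ih
        obtain ⟨j, hj⟩ := hcon i
        exact ⟨j, by omega⟩
    obtain ⟨i, hi⟩ := this (n + 1)
    have := (h i).2
    omega
  obtain ⟨i₀, hi₀⟩ := hbdd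
  have hle : ∀ i, W i ≤ W i₀ := by
    intro i
    obtain ⟨j, hij, hi₀j⟩ := hdir i i₀
    have := (h j).1
    have := (h i₀).1
    have heq : W i₀ = W j := by
      apply Submodule.eq_of_le_of_finrank_le hi₀j
      exact hi₀ j
    rw [heq]
    exact hij
  have hsup : (⨆ i, W i : Submodule k V) = W i₀ :=
    le_antisymm (iSup_le hle) (le_iSup W i₀)
  rw [hsup]
  exact h i₀

end directed

end Fermat.Agent.S56.LocMin
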